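import Mathlib
import Fermat.Agent.LT.T7.H558.FactDownSpec
import Fermat.Agent.LT.T7.H194.Orb.ArchInt

/-!
# Row LT, tower T7, node C2.7.7 `FactDownC305`, leaf FD.8 `ArchIntblC558` (helper194)

OFF-MAIN.  On `LT/T7/H558/FactDownSpec.lean` (helper558@b6c4c8a4b, sha256 8043f526, byte-identical
copy) and the asset `Orb/ArchInt.lean` (closed orbits of regular elements, Tonelli).  No hole,
nothing assumed.

    archIntblC194 : Fermat.Agent.LT.T7.H558.ArchIntblC558
-/

set_option autoImplicit false

open MeasureTheory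

noncomputable section

namespace Fermat.Agent.LT.T7.H194

open Fermat.Agent.LT Fermat.Agent.LT.T7 Fermat.Agent.LT.T7.H305

/-- **FD.8 `ArchIntblC558`, unconditional.** -/
theorem archIntblC194 : H558.ArchIntblC558 :=
  fun μc hμc F hF hFc γ₀ hγ z hz μT hμT β hβ =>
    archIntegrable194 γ₀ hγ μc hμc μT hμT β hβ F hF hFc z hz

end Fermat.Agent.LT.T7.H194

end
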